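import Fermat.Agent.S48.ES1.Main

/-!
# S43 / LG / Inf : `N_p` commutes with the action of `Γ₀(M)` on the function field of `X₁(M)`

Multiplicative port of `S48/HK/Coset.lean` (`heckeFun_slash`) to `Mer`:
`heckeMer p f = (f ∘ diaRep p ∘ diag(p,1)) ∏_{i<p} f ∘ [[1,i],[0,p]]` satisfies
`(heckeMer p f) ∘ g = heckeMer p (f ∘ g)` for `g ∈ Γ₀(M)`, `f` invariant under `Γ₁(M)`.
Consequence: `act1 g (normS M p x) = normS M p (act1 g x)`.
-/

set_option autoImplicit false
set_option linter.unusedSectionVars false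

open UpperHalfPlane ModularCurve AlgebraicCurve CongruenceSubgroup Matrix.SpecialLinearGroup
open scoped MatrixGroups Manifold

noncomputable section

namespace Fermat.Agent.S43.LG

open Fermat.Agent.S24 Fermat.Agent.GAL Fermat.Agent.GAL.Tors Fermat.Agent.S48.Full
  Fermat.Agent.S48.ES1 Fermat.Agent.S48 Fermat.Agent.S48.HK
open P2MW.S_ModularForm_heckeT_slash_eq_self_of_mem_Gamma0.ModularForm.HeckeSlashInvariance

variable {M : ℕ} [NeZero M]

/-- invariance under `Γ₁(M)` in `Mer`. -/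
def InvMer (M : ℕ) (f : Mer) : Prop := ∀ γ : SL(2, ℤ), γ ∈ Gamma1 M → compSL γ f = f

theorem mul_inv_mem_Gamma1 {γ γ' : SL(2, ℤ)} (hγ : γ ∈ Gamma0 M) (hγ' : γ' ∈ Gamma0 M)
    (h : ((γ 1 1 : ℤ) : ZMod M) = ((γ' 1 1 : ℤ) : ZMod M)) : γ * γ'⁻¹ ∈ Gamma1 M := by
  rw [Gamma0_mem] at hγ hγ'
  have hdet : ((γ 0 0 : ℤ) : ZMod M) * ((γ 1 1 : ℤ) : ZMod M) = 1 := by
    have h1 := γ.det_coe
    rw [Matrix.det_fin_two] at h1
    have h2 := congrArg (Int.cast : ℤ → ZMod M) h1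
    push_cast at h2
    rw [hγ, mul_zero, sub_zero] at h2
    exact h2
  have hdet' : ((γ' 0 0 : ℤ) : ZMod M) * ((γ' 1 1 : ℤ) : ZMod M) = 1 := by
    have h1 := γ'.det_coe
    rw [Matrix.det_fin_two] at h1
    have h2 := congrArg (Int.cast : ℤ → ZMod M) h1
    push_cast at h2
    rw [hγ', mul_zero, sub_zero] at h2
    exact h2
  have hinv : ((γ'⁻¹ : SL(2, ℤ)) : Matrix (Fin 2) (Fin 2) ℤ)
      = !![γ' 1 1, -γ' 0 1; -γ' 1 0, γ' 0 0] := by
    rw [Matrix.SpecialLinearGroup.coe_inv, Matrix.adjugate_fin_two]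
  rw [Gamma1_mem]
  simp only [Matrix.SpecialLinearGroup.coe_mul, hinv, Matrix.mul_apply, Fin.sum_univ_two,
    Matrix.of_apply, Matrix.cons_val_zero, Matrix.cons_val_one,
    Matrix.cons_val', Matrix.cons_val_fin_one]
  push_cast
  rw [hγ, hγ']
  refine ⟨?_, ?_, ?_⟩
  · rw [← h, hdet]
    ring
  · rw [h, mul_comm ((γ' 1 1 : ℤ) : ZMod M), hdet']
    ring
  · ring

/-- two elements of `Γ₀(M)` with the same lower right entry mod `M` act in the same way. -/
theorem InvMer.compSL_eq {f : Mer} (hf : InvMer M f) {γ γ' : SL(2, ℤ)}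
    (hγ : γ ∈ Gamma0 M) (hγ' : γ' ∈ Gamma0 M)
    (h : ((γ 1 1 : ℤ) : ZMod M) = ((γ' 1 1 : ℤ) : ZMod M)) : compSL γ f = compSL γ' f := by
  have h3 : γ = (γ * γ'⁻¹) * γ' := by group
  conv_lhs => rw [h3, compSL_mul, hf _ (mul_inv_mem_Gamma1 hγ hγ' h)]

theorem det_heckeRep_pos (p : ℕ) (x : OnePoint (ZMod p)) : 0 < (heckeRep p x).det.val := by
  induction x using OnePoint.rec with
  | infty => exact ModularForm.det_heckeDiagMatrix_pos p
  | coe j => exact ModularForm.det_heckeMatrix_pos p j.val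

/-- the multiplicative Hecke operator on `Mer`. -/
def heckeMer (p : GoodPrime M) (f : Mer) : Mer :=
  compGL (ModularForm.heckeDiagMatrix p.1) (ModularForm.det_heckeDiagMatrix_pos p.1)
      (compSL (diaRep M p.unit) f) *
    ∏ i ∈ Finset.range p.1,
      compGL (ModularForm.heckeMatrix p.1 i) (ModularForm.det_heckeMatrix_pos p.1 i) f

theorem prod_range_eq_prod_zmod {p : ℕ} [NeZero p] {X : Type*} [CommMonoid X] (F : ℕ → X) :
    ∏ j ∈ Finset.range p, F j = ∏ x : ZMod p, F x.val := by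
  refine Finset.prod_nbij' (fun j : ℕ ↦ (j : ZMod p)) (fun x : ZMod p ↦ x.val)
    (fun _ _ ↦ Finset.mem_univ _)
    (fun x _ ↦ Finset.mem_range.mpr x.val_lt) (fun j hj ↦ ?_) (fun x _ ↦ ?_) (fun j hj ↦ ?_)
  · exact ZMod.val_cast_of_lt (Finset.mem_range.mp hj)
  · exact ZMod.natCast_zmod_val x
  · rw [ZMod.val_cast_of_lt (Finset.mem_range.mp hj)]

theorem heckeMer_eq_prod (p : GoodPrime M) [NeZero p.1] (f : Mer) :
    heckeMer p f = ∏ x : OnePoint (ZMod p.1),
      compGL (heckeRep p.1 x) (det_heckeRep_pos p.1 x) (compSL (Coset_dl p x) f) := by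
  rw [heckeMer, prod_range_eq_prod_zmod]
  refine Eq.trans ?_ (Fintype.prod_option
    (fun x : OnePoint (ZMod p.1) ↦
      compGL (heckeRep p.1 x) (det_heckeRep_pos p.1 x) (compSL (Coset_dl p x) f))).symm
  congr 1
  refine Finset.prod_congr rfl fun x _ => ?_
  show compGL (ModularForm.heckeMatrix p.1 x.val) _ f =
    compGL (ModularForm.heckeMatrix p.1 x.val) _ (compSL (1 : SL(2, ℤ)) f)
  rw [compSL_one]

theorem heckeMer_term (p : GoodPrime M) [Fact p.1.Prime] {f : Mer} (hf : InvMer M f)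
    {g : SL(2, ℤ)} (hg : g ∈ Gamma0 M) (x : OnePoint (ZMod p.1)) :
    compSL g (compGL (heckeRep p.1 x) (det_heckeRep_pos p.1 x) (compSL (Coset_dl p x) f)) =
      compGL (heckeRep p.1 (redMatrix p.1 g • x)) (det_heckeRep_pos p.1 _)
        (compSL (Coset_dl p (redMatrix p.1 g • x)) (compSL g f)) := by
  have hcN : (M : ℤ) ∣ g 1 0 := (ZMod.intCast_zmod_eq_zero_iff_dvd _ _).mp (Gamma0_mem.mp hg)
  obtain ⟨g', hg', hwt, hmul⟩ := Coset_heckeRep_mul p.2.2 g hcN x
  have hg'N : g' ∈ Gamma0 M :=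
    Gamma0_mem.mpr ((ZMod.intCast_zmod_eq_zero_iff_dvd _ _).mpr hg')
  have h1 : compSL g' (compSL (Coset_dl p x) f)
      = compSL (Coset_dl p (redMatrix p.1 g • x)) (compSL g f) := by
    rw [← compSL_mul, ← compSL_mul]
    refine hf.compSL_eq (Subgroup.mul_mem _ (Coset_dl_mem p x) hg'N)
      (Subgroup.mul_mem _ hg (Coset_dl_mem p _)) ?_
    rw [Coset_mul_apply_one_one _ _ (Coset_dl_mem p x), Coset_mul_apply_one_one _ _ hg,
      Coset_dl_apply, Coset_dl_apply, hwt]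
  rw [← h1]
  have hpos1 : 0 < (heckeRep p.1 x * mapGL ℝ g).det.val := by
    rw [map_mul, Units.val_mul]
    exact mul_pos (det_heckeRep_pos _ _) (det_mapGL_pos _)
  have hpos2 : 0 < (mapGL ℝ g' * heckeRep p.1 (redMatrix p.1 g • x)).det.val := by
    rw [map_mul, Units.val_mul]
    exact mul_pos (det_mapGL_pos _) (det_heckeRep_pos _ _)
  have e1 : compSL g (compGL (heckeRep p.1 x) (det_heckeRep_pos p.1 x)
      (compSL (Coset_dl p x) f)) = compGL (heckeRep p.1 x * mapGL ℝ g) hpos1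
        (compSL (Coset_dl p x) f) := compGL_compGL _ _ _ _ hpos1 _
  have e2 : compGL (heckeRep p.1 (redMatrix p.1 g • x)) (det_heckeRep_pos p.1 _)
      (compSL g' (compSL (Coset_dl p x) f)) =
      compGL (mapGL ℝ g' * heckeRep p.1 (redMatrix p.1 g • x)) hpos2
        (compSL (Coset_dl p x) f) := compGL_compGL _ _ _ _ hpos2 _
  rw [e1, e2, compGL_congr hmul hpos1 hpos2]

/-- **Coset lemma, multiplicative version.** -/
theorem compSL_heckeMer (p : GoodPrime M) {f : Mer} (hf : InvMer M f) {g : SL(2, ℤ)}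
    (hg : g ∈ Gamma0 M) : compSL g (heckeMer p f) = heckeMer p (compSL g f) := by
  have : Fact p.1.Prime := ⟨p.2.1⟩
  have : NeZero p.1 := ⟨p.2.1.ne_zero⟩
  rw [heckeMer_eq_prod, heckeMer_eq_prod, map_prod,
    Finset.prod_congr rfl (fun x _ => heckeMer_term p hf hg x)]
  exact Equiv.prod_comp (MulAction.toPerm (redMatrix p.1 g))
    (fun x ↦ compGL (heckeRep p.1 x) (det_heckeRep_pos p.1 x)
      (compSL (Coset_dl p x) (compSL g f)))

/-! ### consequences on `FS Kbar (gens1 Kbar M)` -/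

theorem invMer_PsiMer (x : FS Kbar (gens1 Kbar M)) :
    InvMer M ((genSet_F1 S24.iota M).PsiMer x) := fun γ hγ =>
  (genSet_F1 S24.iota M).compSL_PsiMer γ (Gamma1_le_Gamma1PM M hγ) x

theorem PsiMer_normS (p : GoodPrime M) (x : FS Kbar (gens1 Kbar M)) :
    (genSet_F1 S24.iota M).PsiMer (normS M p x) =
      heckeMer p ((genSet_F1 S24.iota M).PsiMer x) := by
  rw [normS, PsiMer_normP p.2.1 (genSet_F1 S24.iota M) (heckeGrp_Gamma1PM p) (diaS M p.unit)
      (PsiMer_diaS M p.unit), heckeMer]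

/-- **`N_p` commutes with `Γ₀(M)`.** -/
theorem act1_normS (p : GoodPrime M) (g : Gamma0 M) (x : FS Kbar (gens1 Kbar M)) :
    act1 S24.iota M g (normS M p x) = normS M p (act1 S24.iota M g x) := by
  apply (genSet_F1 S24.iota M).PsiMer.injective
  rw [PsiMer_act1, PsiMer_normS, PsiMer_normS, PsiMer_act1,
    compSL_heckeMer p (invMer_PsiMer x) (inv_mem g.2)]

end Fermat.Agent.S43.LG
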