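import Fermat.Agent.S48.ES1.Abs

/-!
# S43 / LG / Inf (abstract part) : the subgroup of classes which are "deep" at the Gauss valuation

`F₀ ≤ ℚ((q))`, `F = laurentBaseChange Kbar F₀`, `V = KV Kbar F m`, `A` a valuation subring of `Kbar`.
`Deep A F₀ m ≤ V` : classes of Kummer units which are a constant times a Gauss `1`-unit.

* `Near1.twist_root` : `Near1` is stable under `t ↦ ζ t`, `ζ` ANY root of unity;
* `inertia_sub_mem_deep` : `σ x - x ∈ Deep` for `σ` in the inertia group (needs `NormableOn F A`);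
* `smul_mem_deep` : `Deep` is stable under the decomposition group;
* `HeckePair.T_mem_deep` : `x, ⟨p⟩ x ∈ Deep → T_p x ∈ Deep`.
-/

set_option autoImplicit false

noncomputable section

namespace Fermat.Agent.S43.LG

open ModularCurve AlgebraicCurve Fermat.Agent.S24 Fermat.Agent.GAL Fermat.Agent.GAL.Gauss
  Fermat.Agent.S36.StepA Fermat.Agent.S48.ES1 Fermat.Agent.DR.Conc

variable {A : ValuationSubring Kbar}

/-- the residue map commutes with `t ↦ c t`, `c` a unit of `A`. -/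
theorem gRes_twist_unit {c : Kbar} (hc0 : c ≠ 0) (hc : c ∈ A) (hc' : c⁻¹ ∈ A)
    {x : LaurentSeries Kbar} (hx : x ∈ gRing A) :
    gRes A ⟨_, twist_mem_gRing A hc0 hc hc' hx⟩ =
      S28.twist (Units.map (IsLocalRing.residue ↥A : ↥A →* IsLocalRing.ResidueField ↥A)
        (Series_unit A hc0 hc hc')) (gRes A ⟨x, hx⟩) := by
  obtain ⟨z, g, hg, h⟩ := (mem_gRing_iff A).mp hx
  rw [gRes_eq A _ (z := Fermat.Agent.S28.twist (Series_unit A hc0 hc hc') z)
      (g := Fermat.Agent.S28.twist (Series_unit A hc0 hc hc') g) (by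
      rw [Series_pA_twist]
      exact Series_twist_ne_zero _ hg) (by
      show iA A _ * Fermat.Agent.S24.twist c hc0 x = _
      rw [Series_iA_twist, Series_iA_twist, ← map_mul, h]),
    gRes_eq A ⟨x, _⟩ hg h, Series_pA_twist, Series_pA_twist, map_div₀]

/-- Gauss `1`-units are stable under `t ↦ ζ t`, `ζ` any root of unity. -/
theorem isOne_twist_root {s : LaurentSeries Kbar} (hs : IsOne A s) {ζ : Kbar} {n : ℕ}
    (hn : 0 < n) (hζ : ζ ^ n = 1) (hζ0 : ζ ≠ 0) : IsOne A (Fermat.Agent.S24.twist ζ hζ0 s) := by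
  obtain ⟨h1, h2⟩ := Normalise_zeta_mem A hn hζ
  obtain ⟨h, e⟩ := hs
  refine ⟨twist_mem_gRing A hζ0 h1 h2 h, ?_⟩
  rw [gRes_twist_unit hζ0 h1 h2 h, e, map_one]

/-- `Near1` is stable under `t ↦ ζ t`, `ζ` any root of unity. -/
theorem near1_twist_root {s : LaurentSeries Kbar} (hs : Near1 A s) {ζ : Kbar} {n : ℕ}
    (hn : 0 < n) (hζ : ζ ^ n = 1) (hζ0 : ζ ≠ 0) : Near1 A (Fermat.Agent.S24.twist ζ hζ0 s) := by
  obtain ⟨c, hc, h⟩ := hs
  have h' := isOne_twist_root h hn hζ hζ0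
  rw [map_mul, twist_C] at h'
  exact ⟨c, hc, h'⟩

section Main

variable {F₀ : IntermediateField ℚ (LaurentSeries ℚ)} {m : ℕ}

/-- the series of a Kummer unit. -/
abbrev ser (u : kummerUnits Kbar (laurentBaseChange Kbar F₀) m) : LaurentSeries Kbar :=
  (((u : (laurentBaseChange Kbar F₀)ˣ) : laurentBaseChange Kbar F₀) : LaurentSeries Kbar)

theorem ser_mul (u v : kummerUnits Kbar (laurentBaseChange Kbar F₀) m) :
    ser (u * v) = ser u * ser v := rfl

theorem ser_one : ser (1 : kummerUnits Kbar (laurentBaseChange Kbar F₀) m) = 1 := rfl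

theorem ser_inv (u : kummerUnits Kbar (laurentBaseChange Kbar F₀) m) :
    ser u⁻¹ = (ser u)⁻¹ := by
  rw [ser, Subgroup.coe_inv, Units.val_inv_eq_inv_val, IntermediateField.coe_inv]

variable (A F₀ m) in
/-- **Deep classes**: classes of Kummer units which are a constant times a Gauss `1`-unit. -/
def Deep : AddSubgroup (KV Kbar (laurentBaseChange Kbar F₀) m) where
  carrier := {x | ∃ u : kummerUnits Kbar (laurentBaseChange Kbar F₀) m, KV.mk u = x ∧
    Near1 A (ser u)}
  zero_mem' := ⟨1, KV.mk_one, by rw [ser_one]; exact Near1.one⟩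
  add_mem' := by
    rintro _ _ ⟨u, rfl, hu⟩ ⟨v, rfl, hv⟩
    exact ⟨u * v, KV.mk_mul u v, by rw [ser_mul]; exact hu.mul hv⟩
  neg_mem' := by
    rintro _ ⟨u, rfl, hu⟩
    exact ⟨u⁻¹, KV.mk_inv u, by rw [ser_inv]; exact hu.inv⟩

theorem mem_deep {x : KV Kbar (laurentBaseChange Kbar F₀) m} :
    x ∈ Deep A F₀ m ↔ ∃ u : kummerUnits Kbar (laurentBaseChange Kbar F₀) m, KV.mk u = x ∧
      Near1 A (ser u) := Iff.rfl

theorem mk_mem_deep {u : kummerUnits Kbar (laurentBaseChange Kbar F₀) m} (h : Near1 A (ser u)) :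
    KV.mk u ∈ Deep A F₀ m := ⟨u, rfl, h⟩

theorem ser_pow_mk (y : (laurentBaseChange Kbar F₀)ˣ) :
    ser (⟨y ^ m, pow_mem_kummerUnits m y⟩ : kummerUnits Kbar (laurentBaseChange Kbar F₀) m) =
      ((y : laurentBaseChange Kbar F₀) : LaurentSeries Kbar) ^ m := by
  rw [ser]
  show (((y ^ m : (laurentBaseChange Kbar F₀)ˣ) : laurentBaseChange Kbar F₀) :
    LaurentSeries Kbar) = _
  rw [Units.val_pow_eq_pow_val, IntermediateField.coe_pow]

/-- `KV.mk u` is deep iff `u` is `≈` an `m`-th power. -/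
theorem mk_mem_deep_iff {u : kummerUnits Kbar (laurentBaseChange Kbar F₀) m} :
    KV.mk u ∈ Deep A F₀ m ↔ ∃ y : (laurentBaseChange Kbar F₀)ˣ,
      Near1 A (((y : laurentBaseChange Kbar F₀) : LaurentSeries Kbar) ^ m * ser u) := by
  constructor
  · rintro ⟨v, hv, h⟩
    obtain ⟨y, hy⟩ := (KV.mk_eq_mk_iff v u).1 hv
    refine ⟨y, ?_⟩
    have e : ser v = ((y : laurentBaseChange Kbar F₀) : LaurentSeries Kbar) ^ m * ser u := by
      rw [ser, ← hy, Units.val_mul, Units.val_pow_eq_pow_val, IntermediateField.coe_mul,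
        IntermediateField.coe_pow]
    rwa [← e]
  · rintro ⟨y, hy⟩
    refine ⟨⟨y ^ m, pow_mem_kummerUnits m y⟩ * u, ?_, ?_⟩
    · rw [KV.mk_mul, add_eq_right, KV.mk_eq_zero_iff]
      exact ⟨y, rfl⟩
    · rw [ser_mul, ser_pow_mk]
      exact hy

/-- **`(σ - 1) V ≤ Deep`** for `σ` in the inertia group. -/
theorem inertia_sub_mem_deep (hnorm : NormableOn (laurentBaseChange Kbar F₀) A)
    (σ : Kbar ≃ₐ[ℚ] Kbar) (hσ : σ ∈ A.inertiaSubgroupIn ℚ)
    (x : KV Kbar (laurentBaseChange Kbar F₀) m) : σ • x - x ∈ Deep A F₀ m := by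
  obtain ⟨u, rfl⟩ := KV.mk_surjective x
  rw [smul_mk, sub_eq_add_neg, ← KV.mk_inv, ← KV.mk_mul]
  apply mk_mem_deep
  have h := near1_inertia_div (hnorm _ (u : (laurentBaseChange Kbar F₀)ˣ).ne_zero) σ hσ
  rw [ser_mul, ser_inv, ser, coe_conj, ← div_eq_mul_inv]
  exact h

/-- `Deep` is stable under the decomposition group. -/
theorem smul_mem_deep (σ : Kbar ≃ₐ[ℚ] Kbar) (hσ : σ ∈ A.decompositionSubgroup ℚ)
    {x : KV Kbar (laurentBaseChange Kbar F₀) m} (hx : x ∈ Deep A F₀ m) :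
    σ • x ∈ Deep A F₀ m := by
  obtain ⟨u, rfl, hu⟩ := hx
  rw [smul_mk]
  apply mk_mem_deep
  rw [ser, coe_conj]
  exact hu.coeffMap ⟨σ, hσ⟩

/-! ### a group acting on `F`: classes deep at all translates, with ONE representative -/

section Group

variable {G : Type*} [Group G]
  (act : G →* (laurentBaseChange Kbar F₀ ≃ₐ[Kbar] laurentBaseChange Kbar F₀))

theorem act_kummer (g : G) (u : (laurentBaseChange Kbar F₀)ˣ)
    (hu : u ∈ kummerUnits Kbar (laurentBaseChange Kbar F₀) m) :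
    Units.map ((act g : laurentBaseChange Kbar F₀ →ₐ[Kbar] laurentBaseChange Kbar F₀) :
      laurentBaseChange Kbar F₀ →* laurentBaseChange Kbar F₀) u ∈
      kummerUnits Kbar (laurentBaseChange Kbar F₀) m :=
  Hecke.map_mem_kummerUnits (act g : laurentBaseChange Kbar F₀ →ₐ[Kbar] laurentBaseChange Kbar F₀)
    (RingHom.IsIntegral.of_finite (RingHom.Finite.of_surjective _ (act g).surjective)) hu

/-- the action on Kummer units. -/
def actU (g : G) (u : kummerUnits Kbar (laurentBaseChange Kbar F₀) m) :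
    kummerUnits Kbar (laurentBaseChange Kbar F₀) m :=
  ⟨_, act_kummer act g u u.2⟩

theorem ser_actU (g : G) (u : kummerUnits Kbar (laurentBaseChange Kbar F₀) m) :
    ser (actU act g u) = ((act g ((u : (laurentBaseChange Kbar F₀)ˣ) :
      laurentBaseChange Kbar F₀) : laurentBaseChange Kbar F₀) : LaurentSeries Kbar) := rfl

variable (m) in
/-- the action on the Kummer model. -/
def actV (g : G) :
    KV Kbar (laurentBaseChange Kbar F₀) m →+ KV Kbar (laurentBaseChange Kbar F₀) m :=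
  KV.map _ (fun u hu => act_kummer act g u hu)

theorem actV_mk (g : G) (u : kummerUnits Kbar (laurentBaseChange Kbar F₀) m) :
    actV m act g (KV.mk u) = KV.mk (actU act g u) := rfl

theorem actV_mul (g h : G) (x : KV Kbar (laurentBaseChange Kbar F₀) m) :
    actV m act (g * h) x = actV m act g (actV m act h x) := by
  obtain ⟨u, rfl⟩ := KV.mk_surjective x
  rw [actV_mk, actV_mk, actV_mk]
  congr 1
  apply Subtype.ext
  apply Units.ext
  show act (g * h) _ = act g (act h _)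
  rw [map_mul]
  rfl

theorem actV_one (x : KV Kbar (laurentBaseChange Kbar F₀) m) : actV m act 1 x = x := by
  obtain ⟨u, rfl⟩ := KV.mk_surjective x
  rw [actV_mk]
  congr 1
  apply Subtype.ext
  apply Units.ext
  show act 1 _ = _
  rw [map_one]
  rfl

variable (A m) in
/-- **`K_∞`**: classes with a representative which is a constant times a Gauss `1`-unit at all
translates. -/
def KooG : AddSubgroup (KV Kbar (laurentBaseChange Kbar F₀) m) where
  carrier := {x | ∃ u : kummerUnits Kbar (laurentBaseChange Kbar F₀) m, KV.mk u = x ∧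
    ∀ g : G, Near1 A (ser (actU act g u))}
  zero_mem' := ⟨1, KV.mk_one, fun g => by
    rw [ser_actU]
    show Near1 A ((act g 1 : laurentBaseChange Kbar F₀) : LaurentSeries Kbar)
    rw [map_one]
    exact Near1.one⟩
  add_mem' := by
    rintro _ _ ⟨u, rfl, hu⟩ ⟨v, rfl, hv⟩
    refine ⟨u * v, KV.mk_mul u v, fun g => ?_⟩
    have := (hu g).mul (hv g)
    rw [ser_actU, ser_actU, ← IntermediateField.coe_mul, ← map_mul] at this
    exact this
  neg_mem' := by
    rintro _ ⟨u, rfl, hu⟩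
    refine ⟨u⁻¹, KV.mk_inv u, fun g => ?_⟩
    have := (hu g).inv
    rw [ser_actU, ← IntermediateField.coe_inv, ← map_inv₀] at this
    rw [ser_actU, Subgroup.coe_inv, Units.val_inv_eq_inv_val]
    exact this

theorem mem_KooG {x : KV Kbar (laurentBaseChange Kbar F₀) m} :
    x ∈ KooG A m act ↔ ∃ u : kummerUnits Kbar (laurentBaseChange Kbar F₀) m, KV.mk u = x ∧
      ∀ g : G, Near1 A (ser (actU act g u)) := Iff.rfl

theorem KooG_le_deep : KooG A m act ≤ Deep A F₀ m := by
  rintro _ ⟨u, rfl, hu⟩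
  refine ⟨u, rfl, ?_⟩
  have := hu 1
  rw [ser_actU, map_one] at this
  exact this

/-- `K_∞` is stable under the group. -/
theorem actV_mem_KooG (g : G) {x : KV Kbar (laurentBaseChange Kbar F₀) m}
    (hx : x ∈ KooG A m act) : actV m act g x ∈ KooG A m act := by
  obtain ⟨u, rfl, hu⟩ := hx
  refine ⟨actU act g u, rfl, fun h => ?_⟩
  have := hu (h * g)
  rw [ser_actU, map_mul] at this
  exact this

theorem actV_mem_deep (g : G) {x : KV Kbar (laurentBaseChange Kbar F₀) m}
    (hx : x ∈ KooG A m act) : actV m act g x ∈ Deep A F₀ m :=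
  KooG_le_deep act (actV_mem_KooG act g hx)

variable (hgal : ∀ (s : Kbar ≃ₐ[ℚ] Kbar) (g : G) (x : laurentBaseChange Kbar F₀),
  act g (arithmeticRingAut F₀ s x) = arithmeticRingAut F₀ s (act g x))
include hgal

theorem actV_smul (g : G) (σ : Kbar ≃ₐ[ℚ] Kbar) (x : KV Kbar (laurentBaseChange Kbar F₀) m) :
    actV m act g (σ • x) = σ • actV m act g x := by
  obtain ⟨u, rfl⟩ := KV.mk_surjective x
  rw [smul_mk, actV_mk, actV_mk, smul_mk]
  congr 1
  apply Subtype.ext
  apply Units.ext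
  exact hgal σ g _

theorem ser_actU_conj (g : G) (σ : Kbar ≃ₐ[ℚ] Kbar)
    (u : kummerUnits Kbar (laurentBaseChange Kbar F₀) m) :
    ser (actU act g (conj σ u)) = coeffMap (σ : Kbar →+* Kbar) (ser (actU act g u)) := by
  rw [ser_actU]
  have : ((conj σ u : (laurentBaseChange Kbar F₀)ˣ) : laurentBaseChange Kbar F₀) =
      arithmeticRingAut F₀ σ ((u : (laurentBaseChange Kbar F₀)ˣ) : laurentBaseChange Kbar F₀) := rfl
  rw [this, hgal, coe_arithmeticRingAut_apply, ser_actU]

/-- **`(σ - 1) V ≤ K_∞`** for `σ` in the inertia group. -/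
theorem inertia_sub_mem_KooG (hnorm : NormableOn (laurentBaseChange Kbar F₀) A)
    (σ : Kbar ≃ₐ[ℚ] Kbar) (hσ : σ ∈ A.inertiaSubgroupIn ℚ)
    (x : KV Kbar (laurentBaseChange Kbar F₀) m) : σ • x - x ∈ KooG A m act := by
  obtain ⟨u, rfl⟩ := KV.mk_surjective x
  rw [smul_mk, sub_eq_add_neg, ← KV.mk_inv, ← KV.mk_mul]
  refine ⟨_, rfl, fun g => ?_⟩
  have h := near1_inertia_div (hnorm _ (actU act g u : (laurentBaseChange Kbar F₀)ˣ).ne_zero) σ hσ
  have e : ser (actU act g (conj σ u * u⁻¹)) =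
      ser (actU act g (conj σ u)) / ser (actU act g u) := by
    rw [ser_actU, ser_actU, ser_actU, Subgroup.coe_mul, Units.val_mul, Subgroup.coe_inv,
      Units.val_inv_eq_inv_val, map_mul, map_inv₀, IntermediateField.coe_mul,
      IntermediateField.coe_inv, div_eq_mul_inv]
  rw [e, ser_actU_conj act hgal]
  exact h

/-- `K_∞` is stable under the decomposition group. -/
theorem smul_mem_KooG (σ : Kbar ≃ₐ[ℚ] Kbar) (hσ : σ ∈ A.decompositionSubgroup ℚ)
    {x : KV Kbar (laurentBaseChange Kbar F₀) m} (hx : x ∈ KooG A m act) :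
    σ • x ∈ KooG A m act := by
  obtain ⟨u, rfl, hu⟩ := hx
  rw [smul_mk]
  refine ⟨_, rfl, fun g => ?_⟩
  rw [ser_actU_conj act hgal]
  exact (hu g).coeffMap ⟨σ, hσ⟩

omit hgal in
/-- `K_∞` is stable under `⟨p⟩`. -/
theorem HeckePair.R_mem_KooG {p : ℕ} [NeZero p] (P : HeckePair (laurentBaseChange Kbar F₀) p)
    (g₀ : G) (hD : ∀ x, P.D x = act g₀ x)
    {x : KV Kbar (laurentBaseChange Kbar F₀) m} (hx : x ∈ KooG A m act) :
    P.R m x ∈ KooG A m act := by
  have : P.R m x = actV m act g₀ x := by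
    obtain ⟨u, rfl⟩ := KV.mk_surjective x
    rw [HeckePair.R, KV.map_mk, actV_mk]
    congr 1
    apply Subtype.ext
    apply Units.ext
    exact hD _
  rw [this]
  exact actV_mem_KooG act g₀ hx

omit hgal in
/-- **`K_∞` is stable under `T_p`.** -/
theorem HeckePair.T_mem_KooG {p : ℕ} [NeZero p] (P : HeckePair (laurentBaseChange Kbar F₀) p)
    (g₀ : G) (hD : ∀ x, P.D x = act g₀ x) (hN : ∀ g x, act g (P.N x) = P.N (act g x))
    {x : KV Kbar (laurentBaseChange Kbar F₀) m} (hx : x ∈ KooG A m act) :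
    P.T m x ∈ KooG A m act := by
  obtain ⟨u, rfl, hu⟩ := hx
  obtain ⟨ζ, hζ⟩ : ∃ ζ : Kbar, IsPrimitiveRoot ζ p :=
    HasEnoughRootsOfUnity.exists_primitiveRoot Kbar p
  have hζ0 : ζ ≠ 0 := hζ.ne_zero (NeZero.ne p)
  rw [HeckePair.T, KV.map_mk]
  refine ⟨_, rfl, fun g => ?_⟩
  rw [ser_actU]
  show Near1 A ((act g (P.N ((u : (laurentBaseChange Kbar F₀)ˣ) : laurentBaseChange Kbar F₀)) :
    laurentBaseChange Kbar F₀) : LaurentSeries Kbar)
  rw [hN]
  apply near1_of_qExpand p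
  rw [P.N_formula ζ hζ, hD]
  refine Near1.mul ?_ (Near1.prod _ _ fun i _ => ?_)
  · have := hu (g₀ * g)
    rw [ser_actU, map_mul] at this
    exact (Near1.qExpand this p).qExpand p
  · exact near1_twist_root (hu g) (Nat.pos_of_ne_zero (NeZero.ne p))
      (by rw [← pow_mul, mul_comm, pow_mul, hζ.pow_eq_one, one_pow]) _

end Group

end Main

end Fermat.Agent.S43.LG
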