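import Fermat.Agent.S36.StepA.Tame
import Fermat.Agent.S48.Full.F1B
import Fermat.Agent.S48.ES1.Abs

/-!
# S43 / LG : normalisation on `F1 Kbar M` (function field of `X₁(M)`) at EVERY prime

`S48` proves `NormableOn (F1 Kbar M) A` only for `A` of residue characteristic prime to `M` (through good
reduction).  With `S36/StepA/Tame.lean` (tame series) it holds for every `A` lying over a prime:
the generators `j(q), j(q^M), hSer a 1` have integer coefficients.
-/

set_option autoImplicit false

noncomputable section

namespace Fermat.Agent.S43.LG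

open ModularCurve Fermat.Agent.S24 Fermat.Agent.GAL Fermat.Agent.GAL.Gauss Fermat.Agent.S36.StepA
  Fermat.Agent.S48.Full Fermat.Agent.S48.ES1

variable {A : ValuationSubring Kbar}

/-- a series with integer coefficients is tame. -/
theorem isTame_coeffMap_int (s : LaurentSeries ℤ) :
    IsTame A (coeffMap (Int.castRingHom Kbar) s) := by
  constructor
  · refine ⟨⊥, inferInstance, fun n => ?_⟩
    have : (coeffMap (Int.castRingHom Kbar) s).coeff n = ((s.coeff n : ℤ) : Kbar) := rfl
    rw [this]
    exact intCast_mem _ _
  · refine ⟨1, one_ne_zero, fun n => ?_⟩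
    have : (coeffMap (Int.castRingHom Kbar) s).coeff n = ((s.coeff n : ℤ) : Kbar) := rfl
    rw [this, one_mul]
    exact intCast_mem _ _

/-- the generators of `F1` are tame. -/
theorem isTame_of_mem_gens1 (M : ℕ) [NeZero M] {x : LaurentSeries Kbar} (hx : x ∈ gens1 Kbar M) :
    IsTame A x := by
  rw [← coeffMap_gens1 (Int.castRingHom Kbar) M] at hx
  obtain ⟨y, -, rfl⟩ := hx
  exact isTame_coeffMap_int y

theorem F1_le_tameField (M : ℕ) [NeZero M] : F1 Kbar M ≤ tameField A := by
  rw [F1_eq, F1C, IntermediateField.adjoin_le_iff]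
  intro x hx
  exact (isTame_of_mem_gens1 M hx).mem_tameField

/-- **Normalisation at `∞` on `F1 Kbar M`, any residue characteristic** (also dividing `M`). -/
theorem normableOn_F1 {q : ℕ} (hq : q.Prime) (hA : A.LiesOverPrime q) (M : ℕ) [NeZero M] :
    NormableOn (F1 Kbar M) A := fun x hx =>
  normable_of_mem_tameField hq hA (F1_le_tameField M x.2) fun h => hx (Subtype.ext h)

end Fermat.Agent.S43.LG
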