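import Fermat.Agent.S43.LG.Deep
import Fermat.Agent.S43.LG.Tame
import Fermat.Agent.S43.LG.Comm

/-!
# S43 / LG / Inf : the subgroup `K_∞` of `V = KV Kbar (F1 Kbar M) m` at ANY prime `s` (also `s ∣ M`)

* `actF M : Γ₀(M) →* Aut(F1 Kbar M / Kbar)` (`u ↦ u ∘ g⁻¹`), `diaF M d = ⟨d⟩` for every unit `d`;
  `aV M m g`, `dV M m d` the induced maps on `V`; `RV_eq_dV : RV M m p = dV M m p.unit`;
* `Koo A M m ≤ V` : classes with ONE representative `u` such that all `u ∘ g`, `g ∈ Γ₀(M)`, are a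
  constant times a Gauss `1`-unit (w.r.t. `A`, in `Kbar((q))`);
* `inertia_sub_mem_Koo` : `σ x - x ∈ K_∞` for `σ ∈ I_A` (`A` over any prime);
* `Koo` is stable under `D_A`, `Γ₀(M)` (so all `⟨d⟩`), `T_p`, `⟨p⟩` (`p ∤ M`);
* `TV`, `RV`, `G_ℚ` commute with `aV`.
-/

set_option autoImplicit false

open ModularCurve AlgebraicCurve CongruenceSubgroup
open scoped MatrixGroups

noncomputable section

namespace Fermat.Agent.S43.LG

open Fermat.Agent.S24 Fermat.Agent.GAL Fermat.Agent.GAL.Gauss Fermat.Agent.S36.StepA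
  Fermat.Agent.S48.Full Fermat.Agent.S48.ES1 Fermat.Agent.S48 Fermat.Agent.S48.HK

variable (M : ℕ) [NeZero M]

/-- the action of `Γ₀(M)` on `F1 Kbar M`: `u ↦ u ∘ g⁻¹`. -/
def actF : Gamma0 M →* (F1 Kbar M ≃ₐ[Kbar] F1 Kbar M) :=
  (AlgEquiv.autCongr (F1equiv (K := Kbar) M).symm).toMonoidHom.comp (act1 S24.iota M)

theorem coe_F1equiv_symm (y : FS Kbar (gens1 Kbar M)) :
    (((F1equiv (K := Kbar) M).symm y : F1 Kbar M) : LaurentSeries Kbar) = y := by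
  rw [← coe_F1equiv, AlgEquiv.apply_symm_apply]

theorem F1equiv_eq (x : F1 Kbar M) :
    F1equiv (K := Kbar) M x = ⟨x, F1_eq_FS M ▸ x.2⟩ := Subtype.ext (coe_F1equiv M x)

theorem actF_apply (g : Gamma0 M) (x : F1 Kbar M) :
    actF M g x = (F1equiv (K := Kbar) M).symm (act1 S24.iota M g (F1equiv (K := Kbar) M x)) := rfl

theorem coe_actF (g : Gamma0 M) (x : F1 Kbar M) :
    ((actF M g x : F1 Kbar M) : LaurentSeries Kbar) =
      ((act1 S24.iota M g ⟨x, F1_eq_FS M ▸ x.2⟩ : FS Kbar (gens1 Kbar M)) :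
        LaurentSeries Kbar) := by
  rw [actF_apply, coe_F1equiv_symm, F1equiv_eq]

/-- the action commutes with the Galois action on the coefficients. -/
theorem actF_gal (s : Kbar ≃ₐ[ℚ] Kbar) (g : Gamma0 M) (x : F1 Kbar M) :
    actF M g (arithmeticRingAut (F1₀ M) s x) = arithmeticRingAut (F1₀ M) s (actF M g x) := by
  apply Subtype.ext
  rw [coe_arithmeticRingAut_apply, coe_actF, coe_actF]
  exact coeffMap_act1 S24.iota M (s : Kbar →+* Kbar) g _ _ (coe_arithmeticRingAut_apply _ _ _)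

/-- the element of `Γ₀(M)` inducing `⟨d⟩`. -/
def diaG (d : (ZMod M)ˣ) : Gamma0 M := (⟨diaRep M d, diaRep_mem M d⟩ : Gamma0 M)⁻¹

/-- `⟨d⟩` on `F1 Kbar M`, for every unit `d`. -/
def diaF (d : (ZMod M)ˣ) : F1 Kbar M ≃ₐ[Kbar] F1 Kbar M := actF M (diaG M d)

theorem heckePair_D (p : GoodPrime M) (x : F1 Kbar M) :
    (heckePair M p).D x = actF M (diaG M p.unit) x := by
  apply Subtype.ext
  rw [coe_heckePair_D, coe_actF]
  rfl

theorem actF_heckePair_N (p : GoodPrime M) (g : Gamma0 M) (x : F1 Kbar M) :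
    actF M g ((heckePair M p).N x) = (heckePair M p).N (actF M g x) := by
  apply Subtype.ext
  rw [coe_actF, coe_heckePair_N]
  have e1 : (⟨(((heckePair M p).N x : F1 Kbar M) : LaurentSeries Kbar),
      F1_eq_FS M ▸ ((heckePair M p).N x).2⟩ : FS Kbar (gens1 Kbar M)) =
      normS M p ⟨x, F1_eq_FS M ▸ x.2⟩ := Subtype.ext (coe_heckePair_N p x)
  have e2 : (⟨((actF M g x : F1 Kbar M) : LaurentSeries Kbar),
      F1_eq_FS M ▸ (actF M g x).2⟩ : FS Kbar (gens1 Kbar M)) =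
      act1 S24.iota M g ⟨x, F1_eq_FS M ▸ x.2⟩ := Subtype.ext (coe_actF M g x)
  rw [e1, e2, act1_normS]

variable (m : ℕ)

/-- the action of `Γ₀(M)` on the Kummer model. -/
def aV (g : Gamma0 M) : KV Kbar (F1 Kbar M) m →+ KV Kbar (F1 Kbar M) m := actV m (actF M) g

/-- `⟨d⟩` on the Kummer model, for every unit `d`. -/
def dV (d : (ZMod M)ˣ) : KV Kbar (F1 Kbar M) m →+ KV Kbar (F1 Kbar M) m := aV M m (diaG M d)

theorem aV_mul (g h : Gamma0 M) (x : KV Kbar (F1 Kbar M) m) :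
    aV M m (g * h) x = aV M m g (aV M m h x) := actV_mul _ g h x

theorem aV_one (x : KV Kbar (F1 Kbar M) m) : aV M m 1 x = x := actV_one _ x

theorem aV_smul (g : Gamma0 M) (σ : Kbar ≃ₐ[ℚ] Kbar) (x : KV Kbar (F1 Kbar M) m) :
    aV M m g (σ • x) = σ • aV M m g x := actV_smul _ (actF_gal M) g σ x

theorem RV_eq_dV (p : GoodPrime M) : RV M m p = dV M m p.unit := by
  ext x
  obtain ⟨u, rfl⟩ := KV.mk_surjective x
  rw [RV, HeckePair.R, KV.map_mk, dV, aV, actV_mk]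
  congr 1
  apply Subtype.ext
  apply Units.ext
  exact heckePair_D M p _

theorem aV_TV (p : GoodPrime M) (g : Gamma0 M) (x : KV Kbar (F1 Kbar M) m) :
    aV M m g (TV M m p x) = TV M m p (aV M m g x) := by
  obtain ⟨u, rfl⟩ := KV.mk_surjective x
  rw [TV, HeckePair.T, KV.map_mk, aV, actV_mk, actV_mk, KV.map_mk]
  congr 1
  apply Subtype.ext
  apply Units.ext
  exact actF_heckePair_N M p g _

variable (A : ValuationSubring Kbar)

/-- **`K_∞`.** -/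
def Koo : AddSubgroup (KV Kbar (F1 Kbar M) m) := KooG A m (actF M)

variable {M m A}

theorem mem_Koo {x : KV Kbar (F1 Kbar M) m} :
    x ∈ Koo M m A ↔ ∃ u : kummerUnits Kbar (F1 Kbar M) m, KV.mk u = x ∧
      ∀ g : Gamma0 M, Near1 A ((actF M g ((u : (F1 Kbar M)ˣ) : F1 Kbar M) : F1 Kbar M) :
        LaurentSeries Kbar) := Iff.rfl

theorem Koo_le_deep : Koo M m A ≤ Deep A (F1₀ M) m := KooG_le_deep _

/-- **`(σ - 1) V ≤ K_∞`** for `σ ∈ I_A`, `A` over ANY prime `s`. -/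
theorem inertia_sub_mem_Koo {s : ℕ} (hs : s.Prime) (hA : A.LiesOverPrime s)
    (σ : Kbar ≃ₐ[ℚ] Kbar) (hσ : σ ∈ A.inertiaSubgroupIn ℚ) (x : KV Kbar (F1 Kbar M) m) :
    σ • x - x ∈ Koo M m A :=
  inertia_sub_mem_KooG _ (actF_gal M) (normableOn_F1 hs hA M) σ hσ x

theorem smul_mem_Koo (σ : Kbar ≃ₐ[ℚ] Kbar) (hσ : σ ∈ A.decompositionSubgroup ℚ)
    {x : KV Kbar (F1 Kbar M) m} (hx : x ∈ Koo M m A) : σ • x ∈ Koo M m A :=
  smul_mem_KooG _ (actF_gal M) σ hσ hx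

theorem aV_mem_Koo (g : Gamma0 M) {x : KV Kbar (F1 Kbar M) m} (hx : x ∈ Koo M m A) :
    aV M m g x ∈ Koo M m A := actV_mem_KooG _ g hx

theorem dV_mem_Koo (d : (ZMod M)ˣ) {x : KV Kbar (F1 Kbar M) m} (hx : x ∈ Koo M m A) :
    dV M m d x ∈ Koo M m A := aV_mem_Koo _ hx

theorem RV_mem_Koo (p : GoodPrime M) {x : KV Kbar (F1 Kbar M) m} (hx : x ∈ Koo M m A) :
    RV M m p x ∈ Koo M m A := by
  rw [RV_eq_dV]
  exact dV_mem_Koo _ hx

theorem TV_mem_Koo (p : GoodPrime M) {x : KV Kbar (F1 Kbar M) m} (hx : x ∈ Koo M m A) :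
    TV M m p x ∈ Koo M m A :=
  HeckePair.T_mem_KooG (actF M) (heckePair M p) (diaG M p.unit) (heckePair_D M p)
    (actF_heckePair_N M p) hx

end Fermat.Agent.S43.LG
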